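/-
S17 row, piece `BASE-1` (helper126): every class of `J₀(N)(ℚ̄)` is fixed by an open subgroup of
`G_ℚ` (is defined over a number field).  Exact skeleton statement (`Skel.stabilizer_open`), with the
abbreviations `Qb`, `GQ` unfolded.  Proof: S29 piece `M3` (`Fermat/Agent/S29/H126/M3.lean`).
-/
import Fermat.Agent.S29.H126.M3

set_option autoImplicit false

noncomputable section

namespace Fermat.Agent.S17.H126

open ModularCurve AlgebraicCurve

/-- BASE-1. Every class is fixed by an open subgroup (is defined over a number field). -/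
theorem stabilizer_open (N : ℕ) [NeZero N] (x : JZero N) :
    ∃ K : IntermediateField ℚ (AlgebraicClosure ℚ), FiniteDimensional ℚ K ∧
      ∀ σ : (AlgebraicClosure ℚ ≃ₐ[ℚ] AlgebraicClosure ℚ), (∀ a ∈ K, σ a = a) → σ • x = x :=
  Fermat.Agent.S29.H126.M3_jZero_smooth N x

/-- Every place of `ℚ̄(X₀(N))` is fixed by an open subgroup of `G_ℚ`. -/
theorem place_stabilizer_open (N : ℕ) [NeZero N]
    (v : Place (AlgebraicClosure ℚ) (modularFunctionFieldBar N)) :
    ∃ K : IntermediateField ℚ (AlgebraicClosure ℚ), FiniteDimensional ℚ K ∧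
      ∀ σ : (AlgebraicClosure ℚ ≃ₐ[ℚ] AlgebraicClosure ℚ), (∀ a ∈ K, σ a = a) →
        arithmeticGalois (modularFunctionFieldFull N) σ • v = v :=
  Fermat.Agent.S29.H126.M3_place_openFixed N v

/-- Every function in `ℚ̄(X₀(N))` is fixed by an open subgroup of `G_ℚ`. -/
theorem function_stabilizer_open (N : ℕ) (f : modularFunctionFieldBar N) :
    ∃ K : IntermediateField ℚ (AlgebraicClosure ℚ), FiniteDimensional ℚ K ∧
      ∀ σ : (AlgebraicClosure ℚ ≃ₐ[ℚ] AlgebraicClosure ℚ), (∀ a ∈ K, σ a = a) →
        arithmeticGalois (modularFunctionFieldFull N) σ • f = f :=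
  Fermat.Agent.S29.H126.M3_elt_openFixed N f

end Fermat.Agent.S17.H126
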